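import Fermat.Agent.S41.E2.Ops

/-!
# S41 / E2 / Trace : `U_r² F - F = U_r b - a` with `a = Tr F`, `b = Tr (F ∣ W)` of level `N`   (EXPORT of E2b)
-/

set_option autoImplicit false

namespace Fermat.Agent.S41.E2

open UpperHalfPlane ModularForm CongruenceSubgroup Fermat.Agent.S23
open scoped MatrixGroups Manifold ModularForm

variable {N r : ℕ}

/-- **Export of E2b.**  `a = Tr F = F + U_r (F ∣ W)`, `b = Tr (F ∣ W) = F ∣ W + U_r F`. -/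
theorem exists_trace_rel [NeZero N] (hr : r.Prime) (hrN : ¬ r ∣ N)
    (f : CuspForm (Gamma0 (N * r)) 2) :
    ∃ a b : CuspForm (Gamma0 N) 2,
      heckeU 2 r (heckeU 2 r ⇑f) - ⇑f = heckeU 2 r ⇑b - (⇑a : ℍ → ℂ) := by
  have : NeZero r := ⟨hr.ne_zero⟩
  obtain ⟨d⟩ := exists_AL ((Nat.Prime.coprime_iff_not_dvd hr).mpr hrN)
  have hF : IsCF (G0 (N * r)) 2 ⇑f := ⟨f, rfl⟩
  have hFW : IsCF (G0 (N * r)) 2 ((⇑f : ℍ → ℂ) ∣[(2 : ℤ)] d.W) := d.isCF_W hF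
  obtain ⟨a, ha⟩ := d.isCF_tr hr hrN hF
  obtain ⟨b, hb⟩ := d.isCF_tr hr hrN hFW
  rw [d.slash_W_W hF] at hb
  refine ⟨a, b, ?_⟩
  rw [ha, hb, heckeU_add]
  abel

end Fermat.Agent.S41.E2
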