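import Fermat.Agent.S41.E2.Old
import Fermat.Agent.S41.E2.Trace

/-!
# S41 / E2 / Export : `(U_r² - 1) S₂(Γ₀(N r)) ⊆ Old`
-/

set_option autoImplicit false

namespace Fermat.Agent.S41.E2

open CongruenceSubgroup ModularFormClass UpperHalfPlane CuspForm

variable {N r : ℕ} [NeZero N] [NeZero r]

/-- **Export of E2.**  `U_r² F - F` is `r`-old. -/
theorem Ur_sq_sub_mem_Old (hr : r.Prime) (hrN : ¬ r ∣ N) (F : CuspForm (Gamma0 (N * r)) 2) :
    Ur N r (Ur N r F) - F ∈ Old hr hrN := by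
  obtain ⟨a, b, hab⟩ := exists_trace_rel hr hrN F
  have h : Ur N r (Ur N r F) - F = Ur N r (iota N r b) - iota N r a :=
    DFunLike.coe_injective hab
  rw [h]
  exact sub_mem (Ur_mem_Old hr hrN (iota_mem_Old hr hrN b)) (iota_mem_Old hr hrN a)

/-- the same, as an inclusion of submodules. -/
theorem range_Ur_sq_sub_one_le_Old (hr : r.Prime) (hrN : ¬ r ∣ N) :
    LinearMap.range (Ur N r * Ur N r - 1 : Module.End ℂ (CuspForm (Gamma0 (N * r)) 2)) ≤
      Old hr hrN := by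
  rintro _ ⟨F, rfl⟩
  exact Ur_sq_sub_mem_Old hr hrN F

/-- explicit form. -/
theorem exists_Ur_sq_sub_eq (hr : r.Prime) (hrN : ¬ r ∣ N) (F : CuspForm (Gamma0 (N * r)) 2) :
    ∃ a b : CuspForm (Gamma0 N) 2, Ur N r (Ur N r F) - F = iota N r a + Vr hr hrN b :=
  (mem_Old_iff hr hrN _).mp (Ur_sq_sub_mem_Old hr hrN F)

end Fermat.Agent.S41.E2
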