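import Mathlib
import Fermat.Agent.S49.QCoeff
import Fermat.Agent.S58.Stab
import Fermat.Prelude.Def_CuspForm_HeckeAlgebra

/-!
# S41 / E2 / Old : the `r`-old subspace of `S₂(Γ₀(N r))` and its stability under all Hecke operators

`r` prime, `r ∤ N`.  `iota f = f` (level raised), `Vr f (z) = f (r z)`,
`Old = range iota ⊔ range Vr ⊆ S' = CuspForm (Gamma0 (N * r)) 2`.
-/

set_option autoImplicit false

namespace Fermat.Agent.S41.E2

open CongruenceSubgroup ModularFormClass UpperHalfPlane CuspForm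
open ModularForm (heckeT heckeU heckeDiagMatrix heckeMatrix heckeT_eq_heckeU_add slash_heckeDiagMatrix_apply)

/-- two cusp forms with the same `q`-expansion coefficients are equal. -/
theorem ext_qCoeff {M : ℕ} {k : ℤ} {f g : CuspForm (Gamma0 M) k}
    (h : ∀ n, qCoeff f n = qCoeff g n) : f = g := by
  have h0 : f - g = 0 := by
    apply S49.eq_zero_of_qCoeff
    intro n
    have h1 : qCoeff (⇑(f - g)) n = qCoeff f n - qCoeff g n := (S49.qCoeffLin M k n).map_sub f g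
    rw [h1, h n, sub_self]
  exact sub_eq_zero.mp h0

theorem qCoeff_sub {M : ℕ} {k : ℤ} (f g : CuspForm (Gamma0 M) k) (n : ℕ) :
    qCoeff (⇑(f - g)) n = qCoeff f n - qCoeff g n := (S49.qCoeffLin M k n).map_sub f g

variable (N r : ℕ)

/-- a form of level `N` seen at level `N r`. -/
noncomputable def iota : CuspForm (Gamma0 N) 2 →ₗ[ℂ] CuspForm (Gamma0 (N * r)) 2 where
  toFun := S58.levelUp (Dvd.intro r rfl)
  map_add' _ _ := rfl
  map_smul' _ _ := rfl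

variable {N r}

@[simp] theorem coe_iota (f : CuspForm (Gamma0 N) 2) : ⇑(iota N r f) = ⇑f := rfl

theorem qCoeff_iota (f : CuspForm (Gamma0 N) 2) (n : ℕ) : qCoeff (iota N r f) n = qCoeff f n := rfl

theorem iota_injective : Function.Injective (iota N r) := by
  intro f g h
  exact DFunLike.coe_injective (congrArg (fun x : CuspForm (Gamma0 (N * r)) 2 => (⇑x : ℍ → ℂ)) h)

variable [NeZero N] [NeZero r]

/-- `U_r` at level `N r`. -/
noncomputable abbrev Ur (N r : ℕ) [NeZero N] [NeZero r] :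
    CuspForm (Gamma0 (N * r)) 2 →ₗ[ℂ] CuspForm (Gamma0 (N * r)) 2 :=
  heckeULin 2 (Dvd.intro_left N rfl)

/-- `f (z) ↦ f (r z)`, from level `N` to level `N r`. -/
noncomputable def Vr (hr : r.Prime) (hrN : ¬ r ∣ N) :
    CuspForm (Gamma0 N) 2 →ₗ[ℂ] CuspForm (Gamma0 (N * r)) 2 :=
  (r : ℂ)⁻¹ • (iota N r ∘ₗ heckeTLin 2 hr hrN - Ur N r ∘ₗ iota N r)

theorem Vr_apply (hr : r.Prime) (hrN : ¬ r ∣ N) (f : CuspForm (Gamma0 N) 2) :
    Vr hr hrN f = (r : ℂ)⁻¹ • (iota N r (heckeTLin 2 hr hrN f) - Ur N r (iota N r f)) := rfl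

theorem qCoeff_Vr (hr : r.Prime) (hrN : ¬ r ∣ N) (f : CuspForm (Gamma0 N) 2) (n : ℕ) :
    qCoeff (Vr hr hrN f) n = if r ∣ n then qCoeff f (n / r) else 0 := by
  have hr0 : (r : ℂ) ≠ 0 := Nat.cast_ne_zero.mpr hr.ne_zero
  rw [Vr_apply, S49.qCoeff_smul, qCoeff_sub, qCoeff_iota, S49.qCoeff_heckeTLin,
    S49.qCoeff_heckeULin hr, qCoeff_iota]
  split_ifs with h
  · have : ((r : ℂ) ^ ((2 : ℤ) - 1)) = (r : ℂ) := by norm_num
    rw [this]
    field_simp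
    ring
  · simp

/-- as a function, `Vr f (z) = f (r z)`. -/
theorem coe_Vr (hr : r.Prime) (hrN : ¬ r ∣ N) (f : CuspForm (Gamma0 N) 2) (τ : ℍ) :
    Vr hr hrN f τ = f (heckeDiagMatrix r • τ) := by
  have hr0 : (r : ℂ) ≠ 0 := Nat.cast_ne_zero.mpr hr.ne_zero
  have h1 : (Vr hr hrN f) τ = (r : ℂ)⁻¹ * (heckeT 2 r ⇑f τ - heckeU 2 r ⇑f τ) := rfl
  rw [h1, heckeT_eq_heckeU_add, Pi.add_apply, add_sub_cancel_left,
    slash_heckeDiagMatrix_apply 2 hr.ne_zero]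
  have : ((r : ℂ) ^ ((2 : ℤ) - 1)) = (r : ℂ) := by norm_num
  rw [this, ← mul_assoc, inv_mul_cancel₀ hr0, one_mul]

/-- the `r`-old subspace. -/
noncomputable def Old (hr : r.Prime) (hrN : ¬ r ∣ N) : Submodule ℂ (CuspForm (Gamma0 (N * r)) 2) :=
  LinearMap.range (iota N r) ⊔ LinearMap.range (Vr hr hrN)

theorem iota_mem_Old (hr : r.Prime) (hrN : ¬ r ∣ N) (f : CuspForm (Gamma0 N) 2) :
    iota N r f ∈ Old hr hrN :=
  Submodule.mem_sup_left (LinearMap.mem_range_self _ f)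

theorem Vr_mem_Old (hr : r.Prime) (hrN : ¬ r ∣ N) (f : CuspForm (Gamma0 N) 2) :
    Vr hr hrN f ∈ Old hr hrN :=
  Submodule.mem_sup_right (LinearMap.mem_range_self _ f)

theorem mem_Old_iff (hr : r.Prime) (hrN : ¬ r ∣ N) (F : CuspForm (Gamma0 (N * r)) 2) :
    F ∈ Old hr hrN ↔ ∃ a b : CuspForm (Gamma0 N) 2, F = iota N r a + Vr hr hrN b := by
  constructor
  · intro h
    obtain ⟨x, ⟨a, rfl⟩, y, ⟨b, rfl⟩, rfl⟩ := Submodule.mem_sup.mp h
    exact ⟨a, b, rfl⟩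
  · rintro ⟨a, b, rfl⟩
    exact add_mem (iota_mem_Old hr hrN a) (Vr_mem_Old hr hrN b)

/-! ### commutation with the Hecke operators -/

theorem not_dvd_left {l : ℕ} (h : ¬ l ∣ N * r) : ¬ l ∣ N := fun h' => h (h'.mul_right r)

theorem heckeT_iota {l : ℕ} (hl : l.Prime) (hlN : ¬ l ∣ N * r) (f : CuspForm (Gamma0 N) 2) :
    heckeTLin 2 hl hlN (iota N r f) = iota N r (heckeTLin 2 hl (not_dvd_left hlN) f) := rfl

theorem heckeU_iota {q : ℕ} (hqN : q ∣ N) (f : CuspForm (Gamma0 N) 2) :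
    heckeULin 2 (hqN.mul_right r) (iota N r f) = iota N r (heckeULin 2 hqN f) := rfl

theorem Ur_iota (hr : r.Prime) (hrN : ¬ r ∣ N) (f : CuspForm (Gamma0 N) 2) :
    Ur N r (iota N r f) = iota N r (heckeTLin 2 hr hrN f) - (r : ℂ) • Vr hr hrN f := by
  have hr0 : (r : ℂ) ≠ 0 := Nat.cast_ne_zero.mpr hr.ne_zero
  rw [Vr_apply, smul_smul, mul_inv_cancel₀ hr0, one_smul, sub_sub_cancel]

theorem Ur_Vr (hr : r.Prime) (hrN : ¬ r ∣ N) (f : CuspForm (Gamma0 N) 2) :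
    Ur N r (Vr hr hrN f) = iota N r f := by
  apply ext_qCoeff
  intro n
  rw [S49.qCoeff_heckeULin hr, qCoeff_Vr, if_pos (Dvd.intro_left n rfl),
    Nat.mul_div_cancel _ hr.pos, qCoeff_iota]

theorem heckeT_Vr (hr : r.Prime) (hrN : ¬ r ∣ N) {l : ℕ} (hl : l.Prime) (hlN : ¬ l ∣ N * r)
    (f : CuspForm (Gamma0 N) 2) :
    heckeTLin 2 hl hlN (Vr hr hrN f) = Vr hr hrN (heckeTLin 2 hl (not_dvd_left hlN) f) := by
  have hlr : l ≠ r := fun h => hlN (h ▸ Dvd.intro_left N rfl)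
  have hcop : Nat.Coprime r l := (Nat.coprime_primes hr hl).mpr (Ne.symm hlr)
  apply ext_qCoeff
  intro n
  rw [S49.qCoeff_heckeTLin, qCoeff_Vr, qCoeff_Vr, qCoeff_Vr, S49.qCoeff_heckeTLin]
  have e1 : r ∣ n * l ↔ r ∣ n := hcop.dvd_mul_right
  by_cases hrn : r ∣ n
  · obtain ⟨m, rfl⟩ := hrn
    rw [if_pos (e1.mpr (Dvd.intro m rfl)), if_pos (Dvd.intro m rfl), Nat.mul_div_cancel_left _ hr.pos,
      mul_assoc, Nat.mul_div_cancel_left _ hr.pos]
    have e2 : l ∣ r * m ↔ l ∣ m := hcop.symm.dvd_mul_left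
    by_cases hlm : l ∣ m
    · obtain ⟨m', rfl⟩ := hlm
      rw [if_pos (e2.mpr (Dvd.intro m' rfl)), if_pos (Dvd.intro m' rfl),
        Nat.mul_div_cancel_left _ hl.pos]
      have e3 : r * (l * m') / l = r * m' := by
        rw [mul_left_comm, Nat.mul_div_cancel_left _ hl.pos]
      rw [e3, if_pos (Dvd.intro m' rfl), Nat.mul_div_cancel_left _ hr.pos]
    · rw [if_neg (fun h => hlm (e2.mp h)), if_neg hlm]
  · rw [if_neg (fun h => hrn (e1.mp h)), if_neg hrn]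
    by_cases hln : l ∣ n
    · obtain ⟨m, rfl⟩ := hln
      rw [if_pos (Dvd.intro m rfl), Nat.mul_div_cancel_left _ hl.pos,
        if_neg (fun h => hrn (h.mul_left l))]
      simp
    · rw [if_neg hln]
      simp

theorem heckeU_Vr (hr : r.Prime) (hrN : ¬ r ∣ N) {q : ℕ} (hq : q.Prime) (hqN : q ∣ N)
    (f : CuspForm (Gamma0 N) 2) :
    heckeULin 2 (hqN.mul_right r) (Vr hr hrN f) = Vr hr hrN (heckeULin 2 hqN f) := by
  have hqr : q ≠ r := fun h => hrN (h ▸ hqN)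
  have hcop : Nat.Coprime r q := (Nat.coprime_primes hr hq).mpr (Ne.symm hqr)
  apply ext_qCoeff
  intro n
  rw [S49.qCoeff_heckeULin hq, qCoeff_Vr, qCoeff_Vr, S49.qCoeff_heckeULin hq]
  have e1 : r ∣ n * q ↔ r ∣ n := hcop.dvd_mul_right
  by_cases hrn : r ∣ n
  · obtain ⟨m, rfl⟩ := hrn
    rw [if_pos (e1.mpr (Dvd.intro m rfl)), if_pos (Dvd.intro m rfl), Nat.mul_div_cancel_left _ hr.pos,
      mul_assoc, Nat.mul_div_cancel_left _ hr.pos]
  · rw [if_neg (fun h => hrn (e1.mp h)), if_neg hrn]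

/-! ### stability of `Old` -/

theorem heckeT_mem_Old (hr : r.Prime) (hrN : ¬ r ∣ N) {l : ℕ} (hl : l.Prime) (hlN : ¬ l ∣ N * r)
    {F : CuspForm (Gamma0 (N * r)) 2} (hF : F ∈ Old hr hrN) : heckeTLin 2 hl hlN F ∈ Old hr hrN := by
  obtain ⟨a, b, rfl⟩ := (mem_Old_iff hr hrN F).mp hF
  rw [map_add, heckeT_iota, heckeT_Vr]
  exact add_mem (iota_mem_Old hr hrN _) (Vr_mem_Old hr hrN _)

theorem Ur_mem_Old (hr : r.Prime) (hrN : ¬ r ∣ N)
    {F : CuspForm (Gamma0 (N * r)) 2} (hF : F ∈ Old hr hrN) : Ur N r F ∈ Old hr hrN := by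
  obtain ⟨a, b, rfl⟩ := (mem_Old_iff hr hrN F).mp hF
  rw [map_add, Ur_iota hr hrN, Ur_Vr]
  exact add_mem (sub_mem (iota_mem_Old hr hrN _) (Submodule.smul_mem _ _ (Vr_mem_Old hr hrN _)))
    (iota_mem_Old hr hrN _)

theorem heckeU_mem_Old (hr : r.Prime) (hrN : ¬ r ∣ N) {q : ℕ} (hq : q.Prime) (hqN : q ∣ N * r)
    {F : CuspForm (Gamma0 (N * r)) 2} (hF : F ∈ Old hr hrN) : heckeULin 2 hqN F ∈ Old hr hrN := by
  rcases (Nat.Prime.dvd_mul hq).mp hqN with h | h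
  · obtain ⟨a, b, rfl⟩ := (mem_Old_iff hr hrN F).mp hF
    have e1 : heckeULin 2 hqN (iota N r a) = iota N r (heckeULin 2 h a) := heckeU_iota h a
    have e2 : heckeULin 2 hqN (Vr hr hrN b) = Vr hr hrN (heckeULin 2 h b) := heckeU_Vr hr hrN hq h b
    rw [map_add, e1, e2]
    exact add_mem (iota_mem_Old hr hrN _) (Vr_mem_Old hr hrN _)
  · have : q = r := (Nat.prime_dvd_prime_iff_eq hq hr).mp h
    subst this
    exact Ur_mem_Old hr hrN hF

/-- `Old` is stable under the whole Hecke algebra of level `N r`. -/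
theorem mem_Old_of_mem_heckeAlgebra (hr : r.Prime) (hrN : ¬ r ∣ N) {S : Set ℕ}
    {t : Module.End ℂ (CuspForm (Gamma0 (N * r)) 2)} (ht : t ∈ heckeAlgebra (N * r) 2 S)
    {F : CuspForm (Gamma0 (N * r)) 2} (hF : F ∈ Old hr hrN) : t F ∈ Old hr hrN := by
  revert F
  refine Algebra.adjoin_induction (p := fun t _ => ∀ {F : CuspForm (Gamma0 (N * r)) 2},
    F ∈ Old hr hrN → t F ∈ Old hr hrN) ?_ ?_ ?_ ?_ ht
  · rintro t (⟨l, hl, hlN, -, rfl⟩ | ⟨q, hqN, hq, -, rfl⟩) F hF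
    · exact heckeT_mem_Old hr hrN hl hlN hF
    · exact heckeU_mem_Old hr hrN hq hqN hF
  · intro z F hF
    have : (algebraMap ℤ (Module.End ℂ (CuspForm (Gamma0 (N * r)) 2)) z) F = (z : ℂ) • F := by
      rw [Algebra.algebraMap_eq_smul_one, LinearMap.smul_apply, Module.End.one_apply,
        Int.cast_smul_eq_zsmul]
    rw [this]
    exact Submodule.smul_mem _ _ hF
  · intro s t _ _ hs ht F hF
    exact add_mem (hs hF) (ht hF)
  · intro s t _ _ hs ht F hF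
    exact hs (ht hF)

end Fermat.Agent.S41.E2
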