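import Fermat.Agent.S41.E2.Mat

/-!
# S41 / E2 / Coset : the `r + 1` cosets of `Γ₀(N r)` in `Γ₀(N)`   [task S41/E2-Coset]

`r` prime, `r ∤ N`.  For `δ = [[a,b],[c,e]] ∈ Γ₀(N)` the coset `Γ₀(N r) δ` is determined by `(c : e) ∈ P¹(𝔽_r)`.
`cl δ := none` if `r ∣ c`, `some (e / c mod r)` otherwise;  `rep none = 1`, `rep (some j) = β j.val` (`(c : e) = (N : N j + r w) = (1 : j)`).
-/

set_option autoImplicit false

namespace Fermat.Agent.S41.E2

open UpperHalfPlane ModularForm CongruenceSubgroup Fermat.Agent.S23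
open scoped MatrixGroups Manifold ModularForm

variable {N r : ℕ}

/-- the class of `δ` in `P¹(𝔽_r)`  (`e / c`; the argument `N` is kept for the interface only). -/
noncomputable def cl (_N r : ℕ) (δ : SL(2, ℤ)) : Option (ZMod r) :=
  open Classical in
  if ((δ 1 0 : ℤ) : ZMod r) = 0 then none
  else some (((δ 1 1 : ℤ) : ZMod r) * ((δ 1 0 : ℤ) : ZMod r)⁻¹)

/-- the representatives. -/
def AL.rep (d : AL N r) : Option (ZMod r) → SL(2, ℤ)
  | none => 1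
  | some j => d.β (j.val : ℤ)

theorem AL.rep_mem (d : AL N r) (x : Option (ZMod r)) : d.rep x ∈ Gamma0 N := by
  cases x with
  | none => exact one_mem _
  | some j => exact d.β_mem _

theorem Coset_natCast_ne_zero (hrN : ¬ r ∣ N) : (N : ZMod r) ≠ 0 := by
  intro h
  exact hrN ((ZMod.natCast_eq_zero_iff N r).mp h)

theorem Coset_mul_10 (γ δ : SL(2, ℤ)) : (γ * δ) 1 0 = γ 1 0 * δ 0 0 + γ 1 1 * δ 1 0 := by
  rw [Matrix.SpecialLinearGroup.coe_mul, Matrix.mul_apply, Fin.sum_univ_two]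

theorem Coset_mul_11 (γ δ : SL(2, ℤ)) : (γ * δ) 1 1 = γ 1 0 * δ 0 1 + γ 1 1 * δ 1 1 := by
  rw [Matrix.SpecialLinearGroup.coe_mul, Matrix.mul_apply, Fin.sum_univ_two]

theorem Coset_inv_00 (δ : SL(2, ℤ)) : (δ⁻¹) 0 0 = δ 1 1 := by
  rw [Matrix.SpecialLinearGroup.SL2_inv_expl]; rfl

theorem Coset_inv_10 (δ : SL(2, ℤ)) : (δ⁻¹) 1 0 = - δ 1 0 := by
  rw [Matrix.SpecialLinearGroup.SL2_inv_expl]; rfl

theorem Coset_cl_none {δ : SL(2, ℤ)} (h : ((δ 1 0 : ℤ) : ZMod r) = 0) : cl N r δ = none := by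
  unfold cl; rw [if_pos h]

theorem Coset_cl_some {δ : SL(2, ℤ)} (h : ((δ 1 0 : ℤ) : ZMod r) ≠ 0) :
    cl N r δ = some (((δ 1 1 : ℤ) : ZMod r) * ((δ 1 0 : ℤ) : ZMod r)⁻¹) := by
  unfold cl; rw [if_neg h]

/-- `(c : e)` of `β j` is `(N : N j + r w) = (1 : j)`; `N ≠ 0` in `ZMod r`. -/
theorem AL.cl_rep [Fact r.Prime] (hrN : ¬ r ∣ N) (d : AL N r) (x : Option (ZMod r)) :
    cl N r (d.rep x) = x := by
  have hN : (N : ZMod r) ≠ 0 := Coset_natCast_ne_zero hrN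
  cases x with
  | none => simp [cl, AL.rep]
  | some j =>
    have h10 : (d.β (j.val : ℤ)) 1 0 = (N : ℤ) := rfl
    have h11 : (d.β (j.val : ℤ)) 1 1 = (N : ℤ) * (j.val : ℤ) + (r : ℤ) * d.w := rfl
    have hN' : (((N : ℤ) : ℤ) : ZMod r) ≠ 0 := by simpa using hN
    have hne : (((d.β (j.val : ℤ)) 1 0 : ℤ) : ZMod r) ≠ 0 := by rw [h10]; exact hN'
    show cl N r (d.β (j.val : ℤ)) = some j
    rw [Coset_cl_some hne, h10, h11]
    congr 1
    push_cast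
    rw [ZMod.natCast_self, zero_mul, add_zero, ZMod.natCast_zmod_val, mul_comm (N : ZMod r) j,
      mul_assoc, mul_inv_cancel₀ hN, mul_one]

/-- bottom row of `γ δ` is `≡ γ₁₁ * (bottom row of δ)` mod `r`, and `γ₁₁` is a unit mod `r` (`det γ = 1`, `r ∣ γ₁₀`). -/
theorem cl_mul [Fact r.Prime] (γ δ : SL(2, ℤ)) (hγ : γ ∈ Gamma0 (N * r)) :
    cl N r (γ * δ) = cl N r δ := by
  rw [Gamma0_mem, ZMod.intCast_zmod_eq_zero_iff_dvd] at hγ
  have h10 : ((γ 1 0 : ℤ) : ZMod r) = 0 := by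
    rw [ZMod.intCast_zmod_eq_zero_iff_dvd]
    refine dvd_trans ?_ hγ
    push_cast
    exact dvd_mul_left _ _
  have hdet : γ 0 0 * γ 1 1 - γ 0 1 * γ 1 0 = 1 := by
    have := γ.det_coe
    rwa [Matrix.det_fin_two] at this
  have hu : ((γ 1 1 : ℤ) : ZMod r) ≠ 0 := by
    intro h0
    have := congrArg (fun z : ℤ => (z : ZMod r)) hdet
    simp only [Int.cast_sub, Int.cast_mul, Int.cast_one, h0, h10, mul_zero, sub_zero] at this
    exact zero_ne_one this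
  have e10 : (((γ * δ) 1 0 : ℤ) : ZMod r) = ((γ 1 1 : ℤ) : ZMod r) * ((δ 1 0 : ℤ) : ZMod r) := by
    rw [Coset_mul_10]; push_cast; rw [h10, zero_mul, zero_add]
  have e11 : (((γ * δ) 1 1 : ℤ) : ZMod r) = ((γ 1 1 : ℤ) : ZMod r) * ((δ 1 1 : ℤ) : ZMod r) := by
    rw [Coset_mul_11]; push_cast; rw [h10, zero_mul, zero_add]
  by_cases hc : ((δ 1 0 : ℤ) : ZMod r) = 0
  · rw [Coset_cl_none hc, Coset_cl_none (by rw [e10, hc, mul_zero])]
  · rw [Coset_cl_some hc, Coset_cl_some (by rw [e10]; exact mul_ne_zero hu hc), e10, e11]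
    congr 1
    field_simp

/-- `δ (rep (cl δ))⁻¹ ∈ Γ₀(N r)`: its lower left entry is `c e' - e c'` (`(c', e')` the bottom row of the representative), divisible by `N` (both `c`, `c'` are) and by `r` (definition of `cl`);
`N`, `r` coprime (`Nat.Coprime.mul_dvd_of_dvd_of_dvd` / `IsCoprime.mul_dvd`). -/
theorem AL.mul_rep_inv_mem [Fact r.Prime] (hrN : ¬ r ∣ N) (d : AL N r) (δ : SL(2, ℤ))
    (hδ : δ ∈ Gamma0 N) : δ * (d.rep (cl N r δ))⁻¹ ∈ Gamma0 (N * r) := by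
  have hr : r.Prime := Fact.out
  have hcop : IsCoprime (N : ℤ) (r : ℤ) :=
    Nat.isCoprime_iff_coprime.mpr ((Nat.Prime.coprime_iff_not_dvd hr).mpr hrN).symm
  rw [Gamma0_mem, ZMod.intCast_zmod_eq_zero_iff_dvd] at hδ
  rw [Gamma0_mem, ZMod.intCast_zmod_eq_zero_iff_dvd, Coset_mul_10, Coset_inv_00, Coset_inv_10]
  push_cast
  refine hcop.mul_dvd ?_ ?_
  · -- divisibility by `N`
    have h1 : (N : ℤ) ∣ (d.rep (cl N r δ)) 1 0 := by
      have := d.rep_mem (cl N r δ)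
      rwa [Gamma0_mem, ZMod.intCast_zmod_eq_zero_iff_dvd] at this
    exact dvd_add (Dvd.dvd.mul_right hδ _) (Dvd.dvd.mul_left ((dvd_neg).mpr h1) _)
  · -- divisibility by `r`
    rw [← ZMod.intCast_zmod_eq_zero_iff_dvd]
    by_cases hc : ((δ 1 0 : ℤ) : ZMod r) = 0
    · rw [Coset_cl_none hc]
      simp [AL.rep, hc]
    · rw [Coset_cl_some hc]
      set j : ZMod r := ((δ 1 1 : ℤ) : ZMod r) * ((δ 1 0 : ℤ) : ZMod r)⁻¹ with hj
      have h10 : (d.rep (some j)) 1 0 = (N : ℤ) := rfl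
      have h11 : (d.rep (some j)) 1 1 = (N : ℤ) * (j.val : ℤ) + (r : ℤ) * d.w := rfl
      rw [h10, h11]
      push_cast
      rw [ZMod.natCast_self, zero_mul, add_zero, ZMod.natCast_zmod_val, hj]
      field_simp
      ring

end Fermat.Agent.S41.E2
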