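import Fermat.Agent.S16.Fricke
import Fermat.Agent.S21.Basic
import Fermat.Agent.S58.Stab

/-!
# S41 / E2b : the trace formula `Tr F = F + U_r (F ∣ W_r)` and the relation `U_r² F - F = U_r b - a`   (definitions)

`r` a prime, `r ∤ N`, weight `2`.  Mathlib's slash is `(F ∣[2] g) τ = det g * (c τ + d)^(-2) * F (g τ)`, so SCALAR MATRICES ACT TRIVIALLY in weight `2`
(`S16.Fricke.slash_scal`), `heckeU 2 r F = ∑_{j < r} F ∣ [[1,j],[0,r]]`, `heckeT 2 r F = heckeU 2 r F + F ∣ diag(r,1)`, `(F ∣ diag(r,1)) τ = r F(r τ)`.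

* `AL N r`   : Bezout data `r w - N y = 1`;
* `d.W`      : the Atkin-Lehner matrix `[[r, y],[N r, r w]]` (determinant `r`);
* `d.β j`    : `[[1, j + y],[N, N j + r w]] ∈ Γ₀(N)`;  `W * [[1,j],[0,r]] = r * β j`;
* `d.g1`     : `W * W = r * g1`, `g1 ∈ Γ₀(N r)`.
(The old subspace `Old` is in `E2/Old.lean`, helper14.)
-/

set_option autoImplicit false

namespace Fermat.Agent.S41.E2

open UpperHalfPlane ModularForm CongruenceSubgroup Fermat.Agent.S23
open scoped MatrixGroups Manifold ModularForm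

/-- Bezout data `r w - N y = 1`. -/
structure AL (N r : ℕ) where
  y : ℤ
  w : ℤ
  h : (r : ℤ) * w - (N : ℤ) * y = 1

variable {N r : ℕ}

theorem exists_AL (h : Nat.Coprime r N) : Nonempty (AL N r) := by
  have h1 : IsCoprime (r : ℤ) (N : ℤ) := Nat.isCoprime_iff_coprime.mpr h
  obtain ⟨a, b, hab⟩ := h1
  exact ⟨⟨-b, a, by linarith⟩⟩

/-- the Atkin-Lehner matrix `[[r, y],[N r, r w]]`. -/
noncomputable def AL.W [NeZero r] (d : AL N r) : GL (Fin 2) ℝ :=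
  Matrix.GeneralLinearGroup.mkOfDetNeZero !![(r : ℝ), (d.y : ℝ); (N : ℝ) * r, (r : ℝ) * d.w] (by
    rw [Matrix.det_fin_two_of]
    have h : ((r : ℝ) * d.w - (N : ℝ) * d.y) = 1 := by exact_mod_cast d.h
    have hr : (r : ℝ) ≠ 0 := by exact_mod_cast NeZero.ne r
    have : (r : ℝ) * ((r : ℝ) * d.w) - (d.y : ℝ) * ((N : ℝ) * r) = r := by linear_combination (r : ℝ) * h
    rw [this]
    exact hr)

theorem AL.val_W [NeZero r] (d : AL N r) :
    (d.W : Matrix (Fin 2) (Fin 2) ℝ) = !![(r : ℝ), (d.y : ℝ); (N : ℝ) * r, (r : ℝ) * d.w] := rfl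

/-- `β j = [[1, j + y],[N, N j + r w]]`. -/
def AL.β (d : AL N r) (j : ℤ) : SL(2, ℤ) :=
  ⟨!![1, j + d.y; (N : ℤ), (N : ℤ) * j + (r : ℤ) * d.w], by
    rw [Matrix.det_fin_two_of]
    linear_combination d.h⟩

/-- `W * W = r * g1`. -/
def AL.g1 (d : AL N r) : SL(2, ℤ) :=
  ⟨!![(r : ℤ) + d.y * N, d.y * (1 + d.w); (N : ℤ) * r * (1 + d.w), (N : ℤ) * d.y + r * d.w ^ 2], by
    rw [Matrix.det_fin_two_of]
    linear_combination ((r : ℤ) * d.w - (N : ℤ) * d.y + 1) * d.h⟩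

end Fermat.Agent.S41.E2
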