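import Fermat.Agent.S41.E2.Defs

/-!
# S41 / E2 / Mat : matrix identities   [task S41/E2-Mat]

All proofs: `apply Units.ext`, `rw [Units.val_mul, ..., d.val_W, val_heckeMatrix .., S16.Fricke.scal, val_upperTriangularGL]`, `ext i j; fin_cases i <;> fin_cases j <;> simp [Matrix.mul_apply, Fin.sum_univ_two, S16.Fricke.mapGL_apply, ...] <;> push_cast <;> ring / linear_combination`,
exactly as `S16.Fricke.exists_conj`, `S16.Fricke.W_mul_W` (`Fermat/Agent/S16/Fricke.lean`).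
-/

set_option autoImplicit false

namespace Fermat.Agent.S41.E2

open UpperHalfPlane ModularForm CongruenceSubgroup Fermat.Agent.S23 Fermat.Agent.S16.Fricke
open scoped MatrixGroups Manifold ModularForm

variable {N r : ℕ}

theorem AL.β_mem (d : AL N r) (j : ℤ) : d.β j ∈ Gamma0 N := by
  rw [Gamma0_mem]
  show (((N : ℤ) : ℤ) : ZMod N) = 0
  simp

theorem AL.g1_mem (d : AL N r) : d.g1 ∈ Gamma0 (N * r) := by
  rw [Gamma0_mem, ZMod.intCast_zmod_eq_zero_iff_dvd]
  show ((N * r : ℕ) : ℤ) ∣ (N : ℤ) * r * (1 + d.w)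
  push_cast
  exact Dvd.intro _ rfl

/-- `W * [[1,j],[0,r]] = r * β j`. -/
theorem AL.W_mul_heckeMatrix [NeZero r] (d : AL N r) (j : ℕ) :
    d.W * heckeMatrix r j = scal r (NeZero.ne r) * Matrix.SpecialLinearGroup.mapGL ℝ (d.β j) := by
  have h00 : d.β j 0 0 = 1 := rfl
  have h01 : d.β j 0 1 = j + d.y := rfl
  have h10 : d.β j 1 0 = N := rfl
  have h11 : d.β j 1 1 = (N : ℤ) * j + (r : ℤ) * d.w := rfl
  apply Units.ext
  rw [Units.val_mul, Units.val_mul, d.val_W, val_heckeMatrix (NeZero.ne r), scal,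
    val_upperTriangularGL]
  ext i k
  fin_cases i <;> fin_cases k <;>
    simp only [Fin.zero_eta, Fin.mk_one, Fin.isValue, Matrix.mul_apply, Fin.sum_univ_two,
      mapGL_apply, h00, h01, h10, h11, Matrix.of_apply, Matrix.cons_val_zero,
      Matrix.cons_val_one, Matrix.cons_val', Matrix.cons_val_fin_one] <;>
    push_cast <;> ring

/-- `W * W = r * g1`. -/
theorem AL.W_mul_W [NeZero r] (d : AL N r) :
    d.W * d.W = scal r (NeZero.ne r) * Matrix.SpecialLinearGroup.mapGL ℝ d.g1 := by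
  have h00 : d.g1 0 0 = (r : ℤ) + d.y * N := rfl
  have h01 : d.g1 0 1 = d.y * (1 + d.w) := rfl
  have h10 : d.g1 1 0 = (N : ℤ) * r * (1 + d.w) := rfl
  have h11 : d.g1 1 1 = (N : ℤ) * d.y + r * d.w ^ 2 := rfl
  apply Units.ext
  rw [Units.val_mul, Units.val_mul, d.val_W, scal, val_upperTriangularGL]
  ext i k
  fin_cases i <;> fin_cases k <;>
    simp only [Fin.zero_eta, Fin.mk_one, Fin.isValue, Matrix.mul_apply, Fin.sum_univ_two,
      mapGL_apply, h00, h01, h10, h11, Matrix.of_apply, Matrix.cons_val_zero,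
      Matrix.cons_val_one, Matrix.cons_val', Matrix.cons_val_fin_one] <;>
    push_cast <;> ring

/-- `W` normalises `Γ₀(N r)`.  For `γ = [[a,b],[N r c', e]]`:
`W γ W⁻¹ = [[(r a + y c) w - (r b + y e) N, - y a - y² N c' + r b + y e], [N r (a w + r w² c' - N b - w e), - y N a - y w c + N r b + r w e]]` (`c = N r c'`). -/
theorem AL.exists_conj [NeZero r] (d : AL N r) (γ : SL(2, ℤ)) (hγ : γ ∈ Gamma0 (N * r)) :
    ∃ γ' ∈ Gamma0 (N * r), d.W * Matrix.SpecialLinearGroup.mapGL ℝ γ =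
      Matrix.SpecialLinearGroup.mapGL ℝ γ' * d.W := by
  rw [Gamma0_mem, ZMod.intCast_zmod_eq_zero_iff_dvd] at hγ
  obtain ⟨c', hc'⟩ := hγ
  push_cast at hc'
  have hdet : γ 0 0 * γ 1 1 - γ 0 1 * γ 1 0 = 1 := by
    have := γ.det_coe
    rwa [Matrix.det_fin_two] at this
  have hd := d.h
  obtain ⟨a, ha⟩ : ∃ a, a = γ 0 0 := ⟨_, rfl⟩
  obtain ⟨b, hb⟩ : ∃ b, b = γ 0 1 := ⟨_, rfl⟩
  obtain ⟨e, he⟩ : ∃ e, e = γ 1 1 := ⟨_, rfl⟩
  obtain ⟨y, hy⟩ : ∃ y, y = d.y := ⟨_, rfl⟩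
  obtain ⟨w, hw⟩ : ∃ w, w = d.w := ⟨_, rfl⟩
  rw [← ha, ← hb, ← he, hc'] at hdet
  rw [← hy, ← hw] at hd
  obtain ⟨γ', h00, h01, h10, h11⟩ : ∃ γ' : SL(2, ℤ),
      γ' 0 0 = (r * a + y * (N * r * c')) * w - (r * b + y * e) * N ∧
      γ' 0 1 = -y * a - y ^ 2 * N * c' + r * b + y * e ∧
      γ' 1 0 = (N : ℤ) * r * (a * w + r * w ^ 2 * c' - N * b - w * e) ∧
      γ' 1 1 = -y * N * a - y * w * (N * r * c') + N * r * b + r * w * e := by
    refine ⟨⟨!![(r * a + y * (N * r * c')) * w - (r * b + y * e) * N,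
      -y * a - y ^ 2 * N * c' + r * b + y * e;
      (N : ℤ) * r * (a * w + r * w ^ 2 * c' - N * b - w * e),
      -y * N * a - y * w * (N * r * c') + N * r * b + r * w * e], ?_⟩, rfl, rfl, rfl, rfl⟩
    rw [Matrix.det_fin_two_of]
    have key : ((r * a + y * (N * r * c')) * w - (r * b + y * e) * N) *
        (-y * N * a - y * w * (N * r * c') + N * r * b + r * w * e) -
        (-y * a - y ^ 2 * N * c' + r * b + y * e) *
        ((N : ℤ) * r * (a * w + r * w ^ 2 * c' - N * b - w * e))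
        = ((r : ℤ) * w - N * y) ^ 2 * (a * e - b * (N * r * c')) := by ring
    rw [key, hd, hdet]
    norm_num
  refine ⟨γ', ?_, ?_⟩
  · rw [Gamma0_mem, ZMod.intCast_zmod_eq_zero_iff_dvd, h10]
    push_cast
    exact Dvd.intro _ rfl
  · apply Units.ext
    rw [Units.val_mul, Units.val_mul, d.val_W, ← hy, ← hw]
    have hdR : (r : ℝ) * w - (N : ℝ) * y = 1 := by exact_mod_cast hd
    ext i k
    fin_cases i <;> fin_cases k <;>
      simp only [Fin.zero_eta, Fin.mk_one, Fin.isValue, Matrix.mul_apply, Fin.sum_univ_two,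
        mapGL_apply, h00, h01, h10, h11, hc', ← ha, ← hb, ← he, Matrix.of_apply, Matrix.cons_val_zero,
        Matrix.cons_val_one, Matrix.cons_val', Matrix.cons_val_fin_one] <;>
      push_cast
    · linear_combination (-(r : ℝ) * a - y * N * r * c') * hdR
    · linear_combination (-(r : ℝ) * b - y * e) * hdR
    · linear_combination (-(N : ℝ) * r * a - r * w * N * r * c') * hdR
    · linear_combination (-(N : ℝ) * r * b - r * w * e) * hdR

end Fermat.Agent.S41.E2
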