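import Fermat.Agent.S41.E2.Coset

/-!
# S41 / E2 / Perm : the trace `∑_x F ∣ rep x` is `Γ₀(N)`-invariant   [task S41/E2-Perm]

Uses the statements of `E2/Coset.lean` (`cl`, `rep`, `rep_mem`, `cl_rep`, `cl_mul`, `mul_rep_inv_mem`) as black boxes.
-/

set_option autoImplicit false

namespace Fermat.Agent.S41.E2

open UpperHalfPlane ModularForm CongruenceSubgroup Fermat.Agent.S23
open scoped MatrixGroups Manifold ModularForm

variable {N r : ℕ}

theorem AL.Perm_key [Fact r.Prime] (hrN : ¬ r ∣ N) (d : AL N r) (δ : SL(2, ℤ))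
    (hδ : δ ∈ Gamma0 N) (x : Option (ZMod r)) :
    cl N r (d.rep (cl N r (d.rep x * δ)) * δ⁻¹) = x := by
  have hg : d.rep x * δ ∈ Gamma0 N := mul_mem (d.rep_mem x) hδ
  have hγ := d.mul_rep_inv_mem hrN _ hg
  have e : d.rep (cl N r (d.rep x * δ)) * δ⁻¹
      = (d.rep x * δ * (d.rep (cl N r (d.rep x * δ)))⁻¹)⁻¹ * d.rep x := by
    group
  rw [e, cl_mul _ _ (inv_mem hγ), d.cl_rep hrN]

/-- right multiplication by `δ ∈ Γ₀(N)` permutes the cosets: `x ↦ cl (rep x * δ)` has the inverse `x ↦ cl (rep x * δ⁻¹)`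
(`rep (cl (rep x δ)) = γ⁻¹ rep x δ` with `γ ∈ Γ₀(N r)` by `mul_rep_inv_mem`, then `cl_mul`, `cl_rep`). -/
theorem AL.perm_bijective [Fact r.Prime] (hrN : ¬ r ∣ N) (d : AL N r) (δ : SL(2, ℤ))
    (hδ : δ ∈ Gamma0 N) : Function.Bijective fun x : Option (ZMod r) => cl N r (d.rep x * δ) := by
  refine Function.bijective_iff_has_inverse.2 ⟨fun x => cl N r (d.rep x * δ⁻¹), ?_, ?_⟩
  · intro x
    exact d.Perm_key hrN δ hδ x
  · intro x
    have := d.Perm_key hrN δ⁻¹ (inv_mem hδ) x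
    rwa [inv_inv] at this

/-- **The trace is `Γ₀(N)`-invariant.**  `(F ∣ rep x) ∣ δ = F ∣ (rep x δ) = F ∣ (γ rep (σ x)) = F ∣ rep (σ x)`, `σ x = cl (rep x δ)`; `Function.Bijective.sum_comp`.
(`SlashAction.slash_mul`, `SlashAction.sum_slash`-type lemma or `Finset.sum_induction`; `Fintype (Option (ZMod r))` from `Fact r.Prime` (`NeZero r`).) -/
theorem AL.sum_slash_rep [Fact r.Prime] (hrN : ¬ r ∣ N) (d : AL N r) {k : ℤ} {F : ℍ → ℂ}
    (hF : ∀ γ ∈ Gamma0 (N * r), F ∣[k] γ = F) (δ : SL(2, ℤ)) (hδ : δ ∈ Gamma0 N) :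
    (∑ x : Option (ZMod r), F ∣[k] d.rep x) ∣[k] δ = ∑ x : Option (ZMod r), F ∣[k] d.rep x := by
  rw [SlashAction.sum_slash]
  have h1 : ∀ x : Option (ZMod r),
      (F ∣[k] d.rep x) ∣[k] δ = F ∣[k] d.rep (cl N r (d.rep x * δ)) := by
    intro x
    have hg : d.rep x * δ ∈ Gamma0 N := mul_mem (d.rep_mem x) hδ
    have hγ := d.mul_rep_inv_mem hrN _ hg
    have e : d.rep x * δ
        = (d.rep x * δ * (d.rep (cl N r (d.rep x * δ)))⁻¹) * d.rep (cl N r (d.rep x * δ)) := by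
      group
    rw [← SlashAction.slash_mul]
    conv_lhs => rw [e]
    rw [SlashAction.slash_mul, hF _ hγ]
  rw [Finset.sum_congr rfl fun x _ => h1 x]
  exact (d.perm_bijective hrN δ hδ).sum_comp fun x => F ∣[k] d.rep x

/-- reindexing: `∑_x F ∣ rep x = F + ∑_{j < r} F ∣ β j`  (`Fintype.sum_option`, `slash_one`; `ZMod r ≃ range r` via `ZMod.val`: e.g. `Finset.sum_bij` or `Fin.sum_univ_eq_sum_range` after `ZMod r = Fin r` (cases on `r`)). -/
theorem AL.sum_rep_eq [Fact r.Prime] (d : AL N r) (k : ℤ) (F : ℍ → ℂ) :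
    ∑ x : Option (ZMod r), F ∣[k] d.rep x = F + ∑ j ∈ Finset.range r, F ∣[k] d.β (j : ℤ) := by
  have h1 : ∀ f : ℕ → (ℍ → ℂ), ∑ j : ZMod r, f j.val = ∑ j ∈ Finset.range r, f j := by
    intro f
    have hr : r ≠ 0 := (Fact.out : r.Prime).ne_zero
    obtain ⟨n, rfl⟩ := Nat.exists_eq_succ_of_ne_zero hr
    exact Fin.sum_univ_eq_sum_range f (n + 1)
  rw [Fintype.sum_option]
  congr 1
  · exact SlashAction.slash_one k F
  · exact h1 fun j => F ∣[k] d.β (j : ℤ)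

end Fermat.Agent.S41.E2
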