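import Fermat.Agent.S41.E2.Mat
import Fermat.Agent.S41.E2.Perm

/-!
# S41 / E2 / Ops : Atkin-Lehner and the trace on cusp forms   [task S41/E2-Ops]

Language: `IsCF (G0 M) 2 F := ∃ f : CuspForm (G0 M) 2, ⇑f = F` (`S23`), `F ∈ S21.CF (Gamma0 M) 2` (`S21.mem_CF_iff_exists`, needs `(Gamma0 M).FiniteIndex`, i.e. `NeZero M`).
Templates: `S16.isMF_fricke`, `S16.Fricke.G0_le_conj`, `S16.Fricke.IsMF.mono`, `S16.fricke_fricke` (`Fermat/Agent/S16/Fricke.lean`).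
-/

set_option autoImplicit false

namespace Fermat.Agent.S41.E2

open UpperHalfPlane ModularForm CongruenceSubgroup Fermat.Agent.S23 Fermat.Agent.S16.Fricke
open scoped MatrixGroups Manifold ModularForm

variable {N r : ℕ} {F G : ℍ → ℂ}

/-- restriction of the group (as `S16.Fricke.IsMF.mono`). -/
theorem IsCF_mono {Γ Γ' : Subgroup (GL (Fin 2) ℝ)} {k : ℤ} (h : Γ' ≤ Γ) (hF : IsCF Γ k F) :
    IsCF Γ' k F := by
  obtain ⟨f, rfl⟩ := hF
  exact ⟨{ toFun := f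
           slash_action_eq' := fun γ hγ => f.slash_action_eq' γ (h hγ)
           holo' := f.holo'
           zero_at_cusps' := fun hc => f.zero_at_cusps' (hc.mono h) }, rfl⟩

open ConjAct Pointwise in
theorem Ops_G0_le_conj [NeZero r] (d : AL N r) :
    G0 (N * r) ≤ toConjAct (d.W)⁻¹ • G0 (N * r) := by
  rintro _ ⟨γ, hγ, rfl⟩
  rw [map_inv, Subgroup.mem_inv_pointwise_smul_iff, toConjAct_smul]
  obtain ⟨γ', hγ', h⟩ := d.exists_conj γ hγ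
  rw [h, mul_inv_cancel_right]
  exact ⟨γ', hγ', rfl⟩

/-- `W` normalises `Γ₀(N r)`: `CuspForm.translate f d.W`, `AL.exists_conj` (copy `G0_le_conj`, `isMF_fricke`; `CuspForm.translate f g` has coercion `⇑f ∣[k] g` by `rfl`). -/
theorem AL.isCF_W [NeZero r] (d : AL N r) (hF : IsCF (G0 (N * r)) 2 F) :
    IsCF (G0 (N * r)) 2 (F ∣[(2 : ℤ)] d.W) := by
  obtain ⟨f, rfl⟩ := hF
  exact IsCF_mono (Ops_G0_le_conj d) ⟨CuspForm.translate f d.W, rfl⟩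

/-- `W² = r g1`: `← SlashAction.slash_mul`, `AL.W_mul_W`, `slash_scal` (`r ^ (2 - 2) = 1`), `g1 ∈ Γ₀(N r)`. -/
theorem AL.slash_W_W [NeZero r] (d : AL N r) (hF : IsCF (G0 (N * r)) 2 F) :
    (F ∣[(2 : ℤ)] d.W) ∣[(2 : ℤ)] d.W = F := by
  obtain ⟨f, rfl⟩ := hF
  rw [← SlashAction.slash_mul, d.W_mul_W, SlashAction.slash_mul, slash_scal, sub_self, zpow_zero,
    one_smul]
  exact f.slash_action_eq' _ ⟨d.g1, d.g1_mem, rfl⟩

/-- `heckeU_def`, `← SlashAction.slash_mul`, `AL.W_mul_heckeMatrix`, `slash_scal`.  (The slash by `γ : SL(2,ℤ)` is by definition the slash by `mapGL ℝ γ`: `ModularForm.SL_slash`.) -/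
theorem AL.heckeU_W [NeZero r] (d : AL N r) (F : ℍ → ℂ) :
    heckeU 2 r (F ∣[(2 : ℤ)] d.W) = ∑ j ∈ Finset.range r, F ∣[(2 : ℤ)] d.β (j : ℤ) := by
  rw [heckeU_def]
  refine Finset.sum_congr rfl fun j _ => ?_
  rw [← SlashAction.slash_mul, d.W_mul_heckeMatrix, SlashAction.slash_mul, slash_scal, sub_self,
    zpow_zero, one_smul]
  rfl

/-- **The trace** `Tr F = F + U_r (F ∣ W) = ∑_x F ∣ rep x` is a cusp form of level `N`.
Work in `S21.CF`: `F ∈ CF (Gamma0 (N r)) 2` (`S21.mem_CF_iff_exists`); holomorphy: `S21.mdiff_slash`, sums; invariance: `AL.sum_slash_rep` + `AL.sum_rep_eq`;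
cusps: `(F ∣ β) ∣ δ = F ∣ (β δ)` is zero at `i∞` by the definition of `CF`; finite sums of `IsZeroAtImInfty` functions (`Filter.ZeroAtFilter.add`). -/
theorem AL.isCF_tr [NeZero N] (hr : r.Prime) (hrN : ¬ r ∣ N) (d : AL N r)
    (hF : IsCF (G0 (N * r)) 2 F) :
    haveI : NeZero r := ⟨hr.ne_zero⟩
    IsCF (G0 N) 2 (F + heckeU 2 r (F ∣[(2 : ℤ)] d.W)) := by
  haveI : NeZero r := ⟨hr.ne_zero⟩
  haveI : Fact r.Prime := ⟨hr⟩
  haveI : NeZero (N * r) := ⟨Nat.mul_ne_zero (NeZero.ne N) hr.ne_zero⟩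
  obtain ⟨h1, h2, h3⟩ : F ∈ Fermat.Agent.S21.CF (Gamma0 (N * r)) 2 :=
    Fermat.Agent.S21.mem_CF_iff_exists.2 hF
  have hx : ∀ x : Option (ZMod r), F ∣[(2 : ℤ)] d.rep x ∈ Fermat.Agent.S21.CF ⊥ 2 := fun x =>
    ⟨Fermat.Agent.S21.mdiff_slash h1 2 _,
      fun γ hγ => by rw [Subgroup.mem_bot.1 hγ, SlashAction.slash_one],
      fun δ => by rw [← SlashAction.slash_mul]; exact h3 _⟩
  obtain ⟨s1, -, s3⟩ := Submodule.sum_mem (Fermat.Agent.S21.CF ⊥ 2) (t := Finset.univ)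
    (fun x _ => hx x)
  show IsCF (G0 N) 2 (F + heckeU 2 r (F ∣[(2 : ℤ)] d.W))
  rw [d.heckeU_W, ← d.sum_rep_eq]
  exact Fermat.Agent.S21.mem_CF_iff_exists.1
    ⟨s1, fun δ hδ => d.sum_slash_rep hrN h2 δ hδ, s3⟩

end Fermat.Agent.S41.E2
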